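import Fermat.Agent.S56.H614.RedSpec

/-!
# S56 / W-BASE / EUL-RED: Lemma A (projection formula), helper314

`theorem lemmaA : H614.LemmaAStatement` (VERBATIM, frozen in `H614/RedSpec.lean`).

`Γ = G ⧸ U`, `B = ⟨σ̄⟩`.  The map `a ↦ (j ↦ x ↦ b.coord j (χ(x) • x⁻¹ • a (x B)))` is a
`G`-equivariant linear equivalence `(Γ ⧸ B →₀ W) ≃ ker (M ⊗ R_σ − 1) ⊆ (Ind_U χ)^J`, where `M` is
the matrix of `χ(σ)⁻¹ • σ̄` on `W`.  In terms of `Z(x) = ∑ j, z j x • b j` the kernel condition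
reads `χ(σ)⁻¹ • σ̄ • Z(x σ̄) = Z(x)`, i.e. `x ↦ χ(x)⁻¹ • x • Z(x)` is right `B`-invariant.
-/

set_option autoImplicit false
set_option linter.unusedSectionVars false

noncomputable section

namespace Fermat.Agent.S56.H314

open Fermat.Agent.S55.PT Fermat.Agent.S56.H419 Fermat.Agent.S56.Euler Fermat.Agent.S56.H614 Module
  groupCohomology

section LemmaA

variable {k : Type} [Field k] {G : Type} [Group G] (U : Subgroup G) [U.Normal] [U.FiniteIndex]
  (χ : G →* kˣ) (hχ : ∀ u ∈ U, χ u = 1) (σ : G) (W : FDRepData k (G ⧸ U))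
  {J : Type} [Fintype J] [DecidableEq J] (b : Basis J k W.V)

/-- the character of `G ⧸ U` induced by `χ`. -/
def laChar : (G ⧸ U) →* kˣ := QuotientGroup.lift U χ (fun u hu => hχ u hu)

lemma laChar_mk (g : G) : laChar U χ hχ (g : G ⧸ U) = χ g := rfl

/-- the function `x ↦ χ(x) • x⁻¹ • a (x B)`. -/
def laFun (a : ((G ⧸ U) ⧸ Subgroup.zpowers (σ : G ⧸ U)) →₀ W.V) (x : G ⧸ U) : W.V :=
  ((laChar U χ hχ x : kˣ) : k) • W.ρ x⁻¹ (a (x : (G ⧸ U) ⧸ Subgroup.zpowers (σ : G ⧸ U)))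

/-- the forward map of Lemma A. -/
def laFwd : (((G ⧸ U) ⧸ Subgroup.zpowers (σ : G ⧸ U)) →₀ W.V) →ₗ[k] (J → ((G ⧸ U) →₀ k)) where
  toFun a := fun j => Finsupp.equivFunOnFinite.symm (fun x => b.coord j (laFun U χ hχ σ W a x))
  map_add' a a' := by
    funext j
    ext x
    simp [laFun]
  map_smul' c a := by
    funext j
    ext x
    simp [laFun]
    ring

lemma laFwd_apply (a : ((G ⧸ U) ⧸ Subgroup.zpowers (σ : G ⧸ U)) →₀ W.V) (j : J) (x : G ⧸ U) :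
    laFwd U χ hχ σ W b a j x = b.coord j (laFun U χ hχ σ W a x) := rfl

/-- the twisted operator `A = χ(σ)⁻¹ • σ̄` on `W`. -/
def laOp : W.V →ₗ[k] W.V := (((χ σ)⁻¹ : kˣ) : k) • W.ρ (σ : G ⧸ U)

lemma mk_mul_sigma (x : G ⧸ U) :
    ((x * (σ : G ⧸ U) : G ⧸ U) : (G ⧸ U) ⧸ Subgroup.zpowers (σ : G ⧸ U)) =
      (x : (G ⧸ U) ⧸ Subgroup.zpowers (σ : G ⧸ U)) := by
  rw [QuotientGroup.eq]
  simp

lemma laOp_laFun (a : ((G ⧸ U) ⧸ Subgroup.zpowers (σ : G ⧸ U)) →₀ W.V) (x : G ⧸ U) :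
    laOp U χ σ W (laFun U χ hχ σ W a (x * (σ : G ⧸ U))) = laFun U χ hχ σ W a x := by
  unfold laOp laFun
  rw [mk_mul_sigma, map_mul, laChar_mk, LinearMap.smul_apply, map_smul, smul_smul, mul_inv_rev,
    map_mul, ← LinearMap.comp_apply, ← Module.End.mul_eq_comp, ← mul_assoc, ← map_mul,
    mul_inv_cancel, map_one, one_mul]
  congr 1
  rw [mul_comm, ← Units.val_mul, mul_assoc, mul_inv_cancel, mul_one]

/-- the kernel condition in coordinates. -/
lemma mem_ker_matOp_iff (z : J → ((G ⧸ U) →₀ k)) :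
    z ∈ LinearMap.ker (matOp
            (LinearMap.toMatrix b b ((((χ σ)⁻¹ : kˣ) : k) • W.ρ (σ : G ⧸ U)))
            (indR U (ofChar χ) σ) - 1) ↔
      ∀ x : G ⧸ U, laOp U χ σ W (b.equivFun.symm (fun j => z j (x * (σ : G ⧸ U)))) =
        b.equivFun.symm (fun j => z j x) := by
  have key : ∀ (x : G ⧸ U) (i : J),
      b.equivFun (laOp U χ σ W (b.equivFun.symm (fun j => z j (x * (σ : G ⧸ U))))) i =
        (matOp (LinearMap.toMatrix b b ((((χ σ)⁻¹ : kˣ) : k) • W.ρ (σ : G ⧸ U)))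
            (indR U (ofChar χ) σ) z i : (G ⧸ U) →₀ k) x := by
    intro x i
    rw [matOp_apply, Finsupp.finsetSum_apply, Basis.equivFun_apply,
      ← LinearMap.toMatrix_mulVec_repr b b]
    rw [Matrix.mulVec, dotProduct]
    refine Finset.sum_congr rfl fun j _ => ?_
    rw [Finsupp.smul_apply, indR_apply, ← Basis.equivFun_apply, LinearEquiv.apply_symm_apply]
    rfl
  rw [LinearMap.mem_ker, LinearMap.sub_apply, Module.End.one_apply, sub_eq_zero]
  constructor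
  · intro h x
    apply b.equivFun.injective
    funext i
    rw [key, h, LinearEquiv.apply_symm_apply]
  · intro h
    funext i
    ext x
    rw [← key, h, LinearEquiv.apply_symm_apply]

lemma equivFun_symm_laFwd (a : ((G ⧸ U) ⧸ Subgroup.zpowers (σ : G ⧸ U)) →₀ W.V) (x : G ⧸ U) :
    b.equivFun.symm (fun j => laFwd U χ hχ σ W b a j x) = laFun U χ hχ σ W a x := by
  apply b.equivFun.injective
  rw [LinearEquiv.apply_symm_apply]
  funext j
  rw [laFwd_apply, Basis.equivFun_apply]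
  rfl

lemma laFwd_mem_ker (a : ((G ⧸ U) ⧸ Subgroup.zpowers (σ : G ⧸ U)) →₀ W.V) :
    laFwd U χ hχ σ W b a ∈ LinearMap.ker (matOp
            (LinearMap.toMatrix b b ((((χ σ)⁻¹ : kˣ) : k) • W.ρ (σ : G ⧸ U)))
            (indR U (ofChar χ) σ) - 1) := by
  rw [mem_ker_matOp_iff]
  intro x
  rw [equivFun_symm_laFwd, equivFun_symm_laFwd, laOp_laFun]

lemma laFwd_injective : Function.Injective (laFwd U χ hχ σ W b) := by
  rw [← LinearMap.ker_eq_bot, LinearMap.ker_eq_bot']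
  intro a ha
  ext y
  induction y using QuotientGroup.induction_on with
  | H x =>
    have h1 : laFun U χ hχ σ W a x = 0 := by
      rw [← equivFun_symm_laFwd U χ hχ σ W b a x, ha]
      simp
    unfold laFun at h1
    rw [smul_eq_zero] at h1
    rcases h1 with h1 | h1
    · exact absurd h1 (Units.ne_zero _)
    · have h2 := congrArg (W.ρ x) h1
      rw [← LinearMap.comp_apply, ← Module.End.mul_eq_comp, ← map_mul, mul_inv_cancel, map_one,
        Module.End.one_apply, map_zero] at h2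
      rw [h2]
      rfl

/-- the function `x ↦ χ(x)⁻¹ • x • Z(x)` attached to `z`. -/
def laBack (z : J → ((G ⧸ U) →₀ k)) (x : G ⧸ U) : W.V :=
  (((laChar U χ hχ x)⁻¹ : kˣ) : k) • W.ρ x (b.equivFun.symm (fun j => z j x))

lemma laBack_mul_sigma (z : J → ((G ⧸ U) →₀ k))
    (hz : ∀ x : G ⧸ U, laOp U χ σ W (b.equivFun.symm (fun j => z j (x * (σ : G ⧸ U)))) =
        b.equivFun.symm (fun j => z j x)) (x : G ⧸ U) :
    laBack U χ hχ W b z (x * (σ : G ⧸ U)) = laBack U χ hχ W b z x := by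
  unfold laBack
  rw [← hz x]
  unfold laOp
  have h1 : W.ρ (x * (σ : G ⧸ U)) = W.ρ x * W.ρ (σ : G ⧸ U) := map_mul _ _ _
  have h2 : laChar U χ hχ (x * (σ : G ⧸ U)) = laChar U χ hχ x * χ σ := by
    rw [map_mul, laChar_mk]
  rw [h1, h2, Module.End.mul_apply, LinearMap.smul_apply, map_smul, smul_smul, mul_inv_rev,
    Units.val_mul, mul_comm]

lemma laBack_mul_zpow (z : J → ((G ⧸ U) →₀ k))
    (hz : ∀ x : G ⧸ U, laOp U χ σ W (b.equivFun.symm (fun j => z j (x * (σ : G ⧸ U)))) =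
        b.equivFun.symm (fun j => z j x)) (n : ℤ) (x : G ⧸ U) :
    laBack U χ hχ W b z (x * (σ : G ⧸ U) ^ n) = laBack U χ hχ W b z x := by
  induction n using Int.induction_on generalizing x with
  | zero => simp
  | succ n ih =>
    rw [zpow_add_one, ← mul_assoc, laBack_mul_sigma U χ hχ σ W b z hz, ih]
  | pred n ih =>
    rw [← laBack_mul_sigma U χ hχ σ W b z hz (x * (σ : G ⧸ U) ^ (-(n : ℤ) - 1)), mul_assoc,
      ← zpow_add_one, sub_add_cancel, ih]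

lemma laBack_out (z : J → ((G ⧸ U) →₀ k))
    (hz : ∀ x : G ⧸ U, laOp U χ σ W (b.equivFun.symm (fun j => z j (x * (σ : G ⧸ U)))) =
        b.equivFun.symm (fun j => z j x)) (x : G ⧸ U) :
    laBack U χ hχ W b z (x : (G ⧸ U) ⧸ Subgroup.zpowers (σ : G ⧸ U)).out =
      laBack U χ hχ W b z x := by
  obtain ⟨⟨h, hh⟩, hx⟩ := QuotientGroup.mk_out_eq_mul (Subgroup.zpowers (σ : G ⧸ U)) x
  obtain ⟨n, rfl⟩ := Subgroup.mem_zpowers_iff.1 hh
  rw [hx]
  exact laBack_mul_zpow U χ hχ σ W b z hz n x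

lemma laFwd_surjective (z : J → ((G ⧸ U) →₀ k))
    (hz : z ∈ LinearMap.ker (matOp
            (LinearMap.toMatrix b b ((((χ σ)⁻¹ : kˣ) : k) • W.ρ (σ : G ⧸ U)))
            (indR U (ofChar χ) σ) - 1)) :
    ∃ a, laFwd U χ hχ σ W b a = z := by
  rw [mem_ker_matOp_iff] at hz
  refine ⟨Finsupp.equivFunOnFinite.symm (fun y => laBack U χ hχ W b z y.out), ?_⟩
  funext j
  ext x
  rw [laFwd_apply]
  unfold laFun
  have h0 : (Finsupp.equivFunOnFinite.symm
      (fun y : (G ⧸ U) ⧸ Subgroup.zpowers (σ : G ⧸ U) => laBack U χ hχ W b z y.out))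
      (x : (G ⧸ U) ⧸ Subgroup.zpowers (σ : G ⧸ U)) =
      laBack U χ hχ W b z (x : (G ⧸ U) ⧸ Subgroup.zpowers (σ : G ⧸ U)).out := rfl
  rw [h0, laBack_out U χ hχ σ W b z hz x]
  unfold laBack
  have hw : ∀ w : W.V, ((laChar U χ hχ x : kˣ) : k) •
      W.ρ x⁻¹ ((((laChar U χ hχ x)⁻¹ : kˣ) : k) • W.ρ x w) = w := by
    intro w
    rw [map_smul, smul_smul, ← Units.val_mul, mul_inv_cancel, Units.val_one, one_smul,
      ← Module.End.mul_apply, ← map_mul, inv_mul_cancel, map_one, Module.End.one_apply]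
  rw [hw]
  show b.equivFun (b.equivFun.symm fun j => z j x) j = z j x
  rw [LinearEquiv.apply_symm_apply]

/-- the equivalence of Lemma A. -/
def laEquiv : (((G ⧸ U) ⧸ Subgroup.zpowers (σ : G ⧸ U)) →₀ W.V) ≃ₗ[k]
          ↥(LinearMap.ker (matOp
            (LinearMap.toMatrix b b ((((χ σ)⁻¹ : kˣ) : k) • W.ρ (σ : G ⧸ U)))
            (indR U (ofChar χ) σ) - 1)) :=
  LinearEquiv.ofBijective
    (LinearMap.codRestrict _ (laFwd U χ hχ σ W b) (laFwd_mem_ker U χ hχ σ W b))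
    ⟨fun a a' h => laFwd_injective U χ hχ σ W b (congrArg Subtype.val h),
      fun z => by
        obtain ⟨a, ha⟩ := laFwd_surjective U χ hχ σ W b z.1 z.2
        exact ⟨a, Subtype.ext ha⟩⟩

lemma laEquiv_coe (a : ((G ⧸ U) ⧸ Subgroup.zpowers (σ : G ⧸ U)) →₀ W.V) :
    ((laEquiv U χ hχ σ W b a : ↥(LinearMap.ker (matOp
            (LinearMap.toMatrix b b ((((χ σ)⁻¹ : kˣ) : k) • W.ρ (σ : G ⧸ U)))
            (indR U (ofChar χ) σ) - 1))) : J → ((G ⧸ U) →₀ k)) = laFwd U χ hχ σ W b a := rfl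

lemma diagRho_eval {Γ X N : Type} [Group Γ] [MulAction Γ X] [AddCommGroup N] [Module k N]
    (ρ : Representation k Γ N) (g : Γ) (a : X →₀ N) (y : X) :
    diagRho X ρ g a y = ρ g (a (g⁻¹ • y)) := by
  rw [diagRho_apply, permTensor, LinearMap.comp_apply, Finsupp.lmapDomain_apply,
    Finsupp.mapRange.linearMap_apply]
  conv_lhs => rw [← smul_inv_smul g y]
  rw [Finsupp.mapDomain_apply (MulAction.injective g), Finsupp.mapRange_apply]

lemma indRep_eval (M : Rep.{0, 0, 0} k G) (g : G) (a : (G ⧸ U) →₀ M) (x : G ⧸ U) :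
    ((indRep U M).ρ g a : (G ⧸ U) →₀ M) x = M.ρ g (a (g⁻¹ • x)) := by
  conv_lhs => rw [← smul_inv_smul g x]
  exact indRep_ρ_apply U M g a (g⁻¹ • x)

lemma laFwd_equivariant (g : G) (a : ((G ⧸ U) ⧸ Subgroup.zpowers (σ : G ⧸ U)) →₀ W.V) :
    laFwd U χ hχ σ W b
        (diagRho ((G ⧸ U) ⧸ Subgroup.zpowers (σ : G ⧸ U)) W.ρ (g : G ⧸ U) a) =
      (piRep J (indRep U (ofChar χ))).ρ g (laFwd U χ hχ σ W b a) := by
  funext j
  ext x
  rw [piRep_ρ_apply, indRep_eval, ofChar_ρ_apply, laFwd_apply, laFwd_apply]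
  unfold laFun
  rw [diagRho_eval, smul_eq_mk_mul U g⁻¹ x]
  have h1 : ((g : G ⧸ U))⁻¹ • (x : (G ⧸ U) ⧸ Subgroup.zpowers (σ : G ⧸ U)) =
      ((((g⁻¹ : G) : G ⧸ U) * x : G ⧸ U) : (G ⧸ U) ⧸ Subgroup.zpowers (σ : G ⧸ U)) := rfl
  have h2 : ∀ w : W.V, W.ρ x⁻¹ (W.ρ (g : G ⧸ U) w) = W.ρ (((g⁻¹ : G) : G ⧸ U) * x)⁻¹ w := by
    intro w
    rw [← Module.End.mul_apply, ← map_mul]
    congr 2
    rw [mul_inv_rev, QuotientGroup.mk_inv, inv_inv]
  have h3 : ((χ g : kˣ) : k) * ((laChar U χ hχ (((g⁻¹ : G) : G ⧸ U) * x) : kˣ) : k) =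
      ((laChar U χ hχ x : kˣ) : k) := by
    rw [map_mul, laChar_mk, map_inv, Units.val_mul, ← mul_assoc, ← Units.val_mul, mul_inv_cancel,
      Units.val_one, one_mul]
  rw [h1, h2, LinearMap.map_smul, LinearMap.map_smul, smul_eq_mul, smul_eq_mul, ← mul_assoc, h3]

theorem lemmaA : LemmaAStatement := by
  intro k _ G _ U _ _ χ hχ σ W J _ _ b
  exact ⟨laEquiv U χ hχ σ W b, fun g a => laFwd_equivariant U χ hχ σ W b g a⟩

end LemmaA

end Fermat.Agent.S56.H314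

end
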