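import Mathlib

/-!
# S56 / W-BASE / AVL (additive vanishing lemma): definitions

`AVL`: let `G` be a finite group, `k` a field of characteristic `p`, and `φ` an integer valued
function on finite-dimensional `k`-representations of `G` which is additive on short exact
sequences.  If `φ (k[G/C] ⊗ N) = 0` for every cyclic subgroup `C` of order prime to `p` and every
`N`, then `φ = 0`.

This is the finite-group-theoretic input of Tate's global Euler characteristic formula
(Artin induction + Brauer–Nesbitt).  Mathlib only.

Vocabulary is chosen to match `Fermat.Agent.S55.PT` (`Rep.{0,0,0} k G`, linear maps with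
equivariance hypotheses, `Ind_U N = (G ⧸ U →₀ N)` with the diagonal action).
-/

set_option autoImplicit false

noncomputable section

namespace Fermat.Agent.S56.H314

variable {k : Type} [Field k] {G : Type} [Group G]

/-- `φ` is additive on short exact sequences of finite-dimensional representations. -/
def IsAdditiveFun (φ : Rep.{0, 0, 0} k G → ℤ) : Prop :=
  ∀ (A B C : Rep.{0, 0, 0} k G) (i : A →ₗ[k] B) (π : B →ₗ[k] C),
    FiniteDimensional k A → FiniteDimensional k B → FiniteDimensional k C →
    (∀ (g : G) (a : A), i (A.ρ g a) = B.ρ g (i a)) →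
    (∀ (g : G) (b : B), π (B.ρ g b) = C.ρ g (π b)) →
    Function.Injective i → Function.Surjective π → LinearMap.range i = LinearMap.ker π →
    φ B = φ A + φ C

/-! ### induced modules, `Finsupp` model (verbatim the definition of `S55.PT.indRho`) -/

section Ind

variable (U : Subgroup G) (M : Rep.{0, 0, 0} k G)

/-- the action of `g` on `G ⧸ U →₀ M`: `single x m ↦ single (g • x) (g • m)` -/
def avlIndAct (g : G) : ((G ⧸ U) →₀ M) →ₗ[k] ((G ⧸ U) →₀ M) :=
  (Finsupp.lmapDomain M k (fun x : G ⧸ U => g • x)) ∘ₗ (Finsupp.mapRange.linearMap (M.ρ g))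

@[simp] lemma avlIndAct_single (g : G) (x : G ⧸ U) (m : M) :
    avlIndAct U M g (Finsupp.single x m) = Finsupp.single (g • x) (M.ρ g m) := by
  rw [avlIndAct, LinearMap.comp_apply, Finsupp.mapRange.linearMap_apply, Finsupp.mapRange_single,
    Finsupp.lmapDomain_apply, Finsupp.mapDomain_single]

/-- the diagonal representation on `G ⧸ U →₀ M` -/
def avlIndRho : Representation k G ((G ⧸ U) →₀ M) where
  toFun := avlIndAct U M
  map_one' := by
    apply Finsupp.lhom_ext
    intro x m
    simp
  map_mul' g h := by
    apply Finsupp.lhom_ext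
    intro x m
    simp [mul_smul]

/-- `Ind_U M = k[G/U] ⊗ M` -/
abbrev avlIndRep : Rep.{0, 0, 0} k G := Rep.of (avlIndRho U M)

end Ind

/-! ### the statement -/

/-- **AVL** (additive vanishing lemma). -/
def AVLStatement : Prop :=
  ∀ (p : ℕ) [Fact p.Prime] (k : Type) [Field k] [CharP k p] (G : Type) [Group G] [Finite G]
    (φ : Rep.{0, 0, 0} k G → ℤ), IsAdditiveFun φ →
    (∀ (C : Subgroup G), IsCyclic C → ¬ p ∣ Nat.card C →
      ∀ N : Rep.{0, 0, 0} k G, FiniteDimensional k N → φ (avlIndRep C N) = 0) →
    ∀ N : Rep.{0, 0, 0} k G, FiniteDimensional k N → φ N = 0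

/-! ### function model `N[X] = (X → N)` -/

section Fun

variable {R : Type} [CommRing R] (X : Type) [MulAction G X] {N : Type} [AddCommGroup N]
  [Module R N] (ρ : Representation R G N)

/-- `N[X]`: functions `X → N` with `(g • f) x = ρ g (f (g⁻¹ • x))`. -/
def funRho : Representation R G (X → N) where
  toFun g :=
    { toFun := fun f x => ρ g (f (g⁻¹ • x))
      map_add' := fun f f' => by funext x; simp
      map_smul' := fun c f => by funext x; simp }
  map_one' := by
    ext f x
    simp
  map_mul' g h := by
    ext f x
    simp [mul_smul]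

@[simp] lemma funRho_apply (g : G) (f : X → N) (x : X) :
    funRho X ρ g f x = ρ g (f (g⁻¹ • x)) := rfl

end Fun

end Fermat.Agent.S56.H314

end
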