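import Fermat.Agent.S56.H314.AvlDefs

/-!
# S56 / W-BASE / AVL: leaves

Route (see `coord/S56-AVL-helper314.md` on `origin/helper314`):

* `ArtinSetsStatement`   – Artin induction for the trivial character, as an equality of marks of
  two finite `G`-sets built from `G/C`, `C` cyclic;
* `PermIsoStatement`     – finite `G`-sets with equal marks have isogenous permutation lattices
  (`ℚ[X] ≅ ℚ[Y]`, denominators cleared);
* `LatticeChainStatement`– Brauer–Nesbitt: `φ (Hom(A, N)) = φ (Hom(B, N))` for `G`-lattices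
  `M • B ≤ A ≤ B`;
* `UnipStatement`        – `φ (N[G/C']) = [C : C'] φ (N[G/C])` for `C' ≤ C` cyclic, `[C : C']` a
  power of `p`;
* `SumStatement`         – `φ (N[Σ i, T i]) = Σ i, φ (N[T i])`.
-/

set_option autoImplicit false

noncomputable section

namespace Fermat.Agent.S56.H314

open Representation

variable {k : Type} [Field k] {G : Type} [Group G]

/-- the permutation lattice `ℤ[X]`, as functions: `(g • f) x = f (g⁻¹ • x)` -/
def permZ (X : Type) [MulAction G X] : Representation ℤ G (X → ℤ) where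
  toFun g :=
    { toFun := fun f x => f (g⁻¹ • x)
      map_add' := fun _ _ => rfl
      map_smul' := fun _ _ => rfl }
  map_one' := by
    ext f x
    simp
  map_mul' g h := by
    ext f x
    simp [mul_smul]

@[simp] lemma permZ_apply (X : Type) [MulAction G X] (g : G) (f : X → ℤ) (x : X) :
    permZ X g f x = f (g⁻¹ • x) := rfl

/-- `Hom_ℤ(Λ, N)` for a `ℤ`-representation `Λ` and a `k`-representation `N`:
`(g • u) a = ρ g (u (σ g⁻¹ a))`. -/
def homRho {Λ : Type} [AddCommGroup Λ] (σ : Representation ℤ G Λ) {N : Type} [AddCommGroup N]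
    [Module k N] (ρ : Representation k G N) : Representation k G (Λ →+ N) where
  toFun g :=
    { toFun := fun u => (ρ g).toAddMonoidHom.comp (u.comp (σ g⁻¹).toAddMonoidHom)
      map_add' := fun u v => by
        ext a
        simp
      map_smul' := fun c u => by
        ext a
        simp }
  map_one' := by
    ext u a
    simp
  map_mul' g h := by
    ext u a
    simp

@[simp] lemma homRho_apply {Λ : Type} [AddCommGroup Λ] (σ : Representation ℤ G Λ) {N : Type}
    [AddCommGroup N] [Module k N] (ρ : Representation k G N) (g : G) (u : Λ →+ N) (a : Λ) :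
    homRho σ ρ g u a = ρ g (u (σ g⁻¹ a)) := rfl

/-- number of fixed points of `g` on `X` -/
def marks (X : Type) [MulAction G X] (g : G) : ℕ := Nat.card {x : X // g • x = x}

/-- **Artin induction for the trivial character**, set-theoretic form: there are two finite
families of cyclic subgroups such that `⊔ G/cᵢ` and `|G| • pt ⊔ ⊔ G/dⱼ` have the same marks. -/
def ArtinSetsStatement : Prop :=
  ∀ (G : Type) [Group G] [Finite G],
    ∃ (I J : Type) (_ : Fintype I) (_ : Fintype J) (c : I → Subgroup G) (d : J → Subgroup G),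
      (∀ i, IsCyclic (c i)) ∧ (∀ j, IsCyclic (d j)) ∧
      ∀ g : G, ∑ i, marks (G ⧸ c i) g = Nat.card G + ∑ j, marks (G ⧸ d j) g

/-- **Permutation lattices with equal marks are isogenous.** -/
def PermIsoStatement : Prop :=
  ∀ (G : Type) [Group G] [Finite G] (X Y : Type) [Finite X] [Finite Y] [MulAction G X]
    [MulAction G Y],
    (∀ g : G, marks X g = marks Y g) →
    ∃ (F : (X → ℤ) →ₗ[ℤ] (Y → ℤ)) (F' : (Y → ℤ) →ₗ[ℤ] (X → ℤ)) (M : ℕ), 0 < M ∧
      (∀ (g : G) (v : X → ℤ), F (permZ X g v) = permZ Y g (F v)) ∧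
      (∀ (g : G) (v : Y → ℤ), F' (permZ Y g v) = permZ X g (F' v)) ∧
      (∀ v, F (F' v) = M • v) ∧ (∀ v, F' (F v) = M • v)

/-- **Brauer–Nesbitt for lattices.**  If `M • B ≤ A ≤ B` are `G`-stable sublattices of a
finitely generated torsion-free `ℤ[G]`-module `Λ`, then `φ (Hom(A, N)) = φ (Hom(B, N))`. -/
def LatticeChainStatement : Prop :=
  ∀ (p : ℕ) [Fact p.Prime] (k : Type) [Field k] [CharP k p] (G : Type) [Group G]
    (φ : Rep.{0, 0, 0} k G → ℤ), IsAdditiveFun φ →
    ∀ (Λ : Type) [AddCommGroup Λ] [Module.Finite ℤ Λ] [Module.Free ℤ Λ]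
      (σ : Representation ℤ G Λ)
      (N : Type) [AddCommGroup N] [Module k N] [FiniteDimensional k N] (ρ : Representation k G N)
      (A B : Subrepresentation σ), A ≤ B → ∀ M : ℕ, 0 < M → (∀ b ∈ B, M • b ∈ A) →
      φ (Rep.of (homRho A.toRepresentation ρ)) = φ (Rep.of (homRho B.toRepresentation ρ))

/-- **Brauer–Nesbitt for permutation modules.** -/
def BNStatement : Prop :=
  ∀ (p : ℕ) [Fact p.Prime] (k : Type) [Field k] [CharP k p] (G : Type) [Group G] [Finite G]
    (φ : Rep.{0, 0, 0} k G → ℤ), IsAdditiveFun φ →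
    ∀ (X Y : Type) [Finite X] [Finite Y] [MulAction G X] [MulAction G Y],
      (∀ g : G, marks X g = marks Y g) →
      ∀ (N : Type) [AddCommGroup N] [Module k N] [FiniteDimensional k N]
        (ρ : Representation k G N),
        φ (Rep.of (funRho X ρ)) = φ (Rep.of (funRho Y ρ))

/-- **Unipotent step.**  `C' ≤ C` subgroups with `C'` normal in `C`, `C / C'` cyclic of order a
power `q` of `p = char k`: `φ (N[G/C']) = q • φ (N[G/C])`. -/
def UnipStatement : Prop :=
  ∀ (p : ℕ) [Fact p.Prime] (k : Type) [Field k] [CharP k p] (G : Type) [Group G] [Finite G]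
    (φ : Rep.{0, 0, 0} k G → ℤ), IsAdditiveFun φ →
    ∀ (C : Subgroup G), IsCyclic C → ∀ (C' : Subgroup G), C' ≤ C →
      (∃ n : ℕ, Nat.card C = p ^ n * Nat.card C') →
      ∀ (N : Type) [AddCommGroup N] [Module k N] [FiniteDimensional k N]
        (ρ : Representation k G N),
        φ (Rep.of (funRho (G ⧸ C') ρ)) = (C'.relIndex C : ℤ) * φ (Rep.of (funRho (G ⧸ C) ρ))

/-- **Additivity over disjoint unions.** -/
def SumStatement : Prop :=
  ∀ (k : Type) [Field k] (G : Type) [Group G]
    (φ : Rep.{0, 0, 0} k G → ℤ), IsAdditiveFun φ →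
    ∀ (I : Type) [Fintype I] (T : I → Type) [∀ i, Finite (T i)] [∀ i, MulAction G (T i)]
      (N : Type) [AddCommGroup N] [Module k N] [FiniteDimensional k N]
      (ρ : Representation k G N),
      φ (Rep.of (funRho (Σ i, T i) ρ)) = ∑ i, φ (Rep.of (funRho (T i) ρ))

end Fermat.Agent.S56.H314

end
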