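import Fermat.Agent.S56.H314.AvlCore
import Fermat.Agent.S56.H674.AvlPermIso
import Fermat.Agent.S56.H765.AvlLattice

/-!
# S56 / W-BASE / AVL (additive vanishing lemma): final theorem

`avl : AVLStatement`: an additive function on finite-dimensional `k[G]`-modules (`char k = p`,
`G` finite) which vanishes on `k[G/C] ⊗ N` for all cyclic `C` of order prime to `p` vanishes.

Inputs: `H674.permIso` (permutation lattices with equal marks are isogenous),
`H765.latticeChain765` (Brauer–Nesbitt for lattices), `AvlCore` (Artin, unipotent step, sums).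
-/

set_option autoImplicit false
set_option linter.style.haveILetI false
set_option linter.unusedSectionVars false

noncomputable section

namespace Fermat.Agent.S56.H314

open Representation

variable {k : Type} [Field k] {G : Type} [Group G] {φ : Rep.{0, 0, 0} k G → ℤ}

section HomFun

variable {Λ : Type} [AddCommGroup Λ] (σ : Representation ℤ G Λ) (X : Type) [Fintype X]
  [DecidableEq X] [MulAction G X] (E : (X → ℤ) ≃+ Λ)
  {N : Type} [AddCommGroup N] [Module k N] (ρ : Representation k G N)

lemma permZ_single (g : G) (x : X) :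
    permZ X g (Pi.single x 1) = Pi.single (g • x) 1 := by
  funext z
  rw [permZ_apply, Pi.single_apply, Pi.single_apply]
  by_cases h : z = g • x
  · rw [if_pos h, if_pos (by rw [h, inv_smul_smul])]
  · rw [if_neg h, if_neg (fun h' => h (by rw [← h', smul_inv_smul]))]

/-- `Hom_ℤ(Λ, N) ≅ N[X]` for a lattice with a permutation basis indexed by `X` -/
def homFunEquiv : (Λ →+ N) ≃ₗ[k] (X → N) where
  toFun u x := u (E (Pi.single x 1))
  map_add' _ _ := rfl
  map_smul' _ _ := rfl
  invFun f :=
    { toFun := fun a => ∑ x, (E.symm a x) • f x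
      map_zero' := by simp
      map_add' := fun a b => by simp [add_smul, Finset.sum_add_distrib] }
  left_inv u := by
    ext a
    show ∑ x, (E.symm a x) • u (E (Pi.single x 1)) = u a
    have h1 : ∀ x, (E.symm a x) • u (E (Pi.single x 1)) = u (E ((E.symm a x) • Pi.single x 1)) := by
      intro x
      rw [map_zsmul, map_zsmul]
    simp_rw [h1]
    rw [← map_sum, ← map_sum]
    have h2 : ∑ x, (E.symm a x) • (Pi.single x 1 : X → ℤ) = E.symm a := by
      funext y
      simp [Finset.sum_apply, Pi.single_apply]
    rw [h2, AddEquiv.apply_symm_apply]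
  right_inv f := by
    funext x
    show ∑ y, (E.symm (E (Pi.single x 1)) y) • f y = f x
    rw [AddEquiv.symm_apply_apply]
    simp [Pi.single_apply]

lemma homFunEquiv_equivariant (hE : ∀ (g : G) (v : X → ℤ), E (permZ X g v) = σ g (E v)) (g : G)
    (u : Λ →+ N) :
    homFunEquiv (k := k) X E (homRho σ ρ g u) = funRho X ρ g (homFunEquiv (k := k) X E u) := by
  funext x
  show ρ g (u (σ g⁻¹ (E (Pi.single x 1)))) = ρ g (u (E (Pi.single (g⁻¹ • x) 1)))
  rw [← hE, permZ_single]

lemma phi_hom_eq_fun [FiniteDimensional k N] (hφ : IsAdditiveFun φ)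
    (hE : ∀ (g : G) (v : X → ℤ), E (permZ X g v) = σ g (E v)) :
    φ (Rep.of (homRho σ ρ)) = φ (Rep.of (funRho X ρ)) := by
  symm
  refine hφ.congr (homFunEquiv (k := k) X E).symm ?_
  intro g f
  apply (homFunEquiv (k := k) (N := N) X E).injective
  rw [LinearEquiv.apply_symm_apply, homFunEquiv_equivariant σ X E ρ hE,
    LinearEquiv.apply_symm_apply]

end HomFun

/-- **Brauer–Nesbitt for permutation modules.** -/
theorem bn_of_leaves (hP : PermIsoStatement) (hL : LatticeChainStatement) : BNStatement := by
  intro p _ k _ _ G _ _ φ hφ X Y _ _ _ _ hmarks N _ _ _ ρ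
  classical
  letI : Fintype X := Fintype.ofFinite X
  letI : Fintype Y := Fintype.ofFinite Y
  obtain ⟨F, F', M, hM, hF, hF', hFF', hF'F⟩ := hP G X Y hmarks
  -- the two sublattices of `ℤ^Y`
  let B : Subrepresentation (permZ (G := G) Y) := ⊤
  let A : Subrepresentation (permZ (G := G) Y) :=
    { toSubmodule := LinearMap.range F
      apply_mem_toSubmodule := by
        rintro g _ ⟨v, rfl⟩
        exact ⟨permZ X g v, hF g v⟩ }
  have hAB : A ≤ B := fun _ _ => trivial
  have hMB : ∀ b ∈ B, M • b ∈ A := fun b _ => ⟨F' b, hFF' b⟩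
  have hchain := hL p k G φ hφ (Y → ℤ) (permZ Y) N ρ A B hAB M hM hMB
  -- identification of the two ends
  have hFinj : Function.Injective F := by
    intro v v' h
    have h1 : M • v = M • v' := by rw [← hF'F v, ← hF'F v', h]
    have hM' : (M : ℤ) ≠ 0 := by exact_mod_cast hM.ne'
    funext x
    have h2 := congrFun h1 x
    simp only [Pi.smul_apply, nsmul_eq_mul] at h2
    exact mul_left_cancel₀ hM' h2
  let EA : (X → ℤ) ≃+ A.toSubmodule := (LinearEquiv.ofInjective F hFinj).toAddEquiv
  let EB : (Y → ℤ) ≃+ B.toSubmodule := (Submodule.topEquiv (R := ℤ) (M := Y → ℤ)).symm.toAddEquiv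
  have hA : φ (Rep.of (homRho A.toRepresentation ρ)) = φ (Rep.of (funRho X ρ)) := by
    refine phi_hom_eq_fun A.toRepresentation X EA ρ hφ ?_
    intro g v
    apply Subtype.ext
    exact hF g v
  have hB : φ (Rep.of (homRho B.toRepresentation ρ)) = φ (Rep.of (funRho Y ρ)) := by
    refine phi_hom_eq_fun B.toRepresentation Y EB ρ hφ ?_
    intro g v
    rfl
  rw [← hA, ← hB, hchain]

theorem bnStatement : BNStatement :=
  bn_of_leaves Fermat.Agent.S56.H674.permIso Fermat.Agent.S56.H765.latticeChain765

/-- **AVL** (additive vanishing lemma). -/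
theorem avl : AVLStatement := avl_of_bn bnStatement

end Fermat.Agent.S56.H314

end
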