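import Fermat.Agent.S56.H314.AvlSpec

/-!
# S56 / W-BASE / AVL (additive vanishing lemma): core

* toolkit for additive functions (`IsAdditiveFun.add_of`, `.congr`, `.ker_add_range`);
* `sumStatement : SumStatement` (additivity over disjoint unions);
* `unip_zpowers` (unipotent step: `φ (N[G/⟨c^q⟩]) = q • φ (N[G/⟨c⟩])`, `q = pⁿ ∣ orderOf c`);
* `artinSets : ArtinSetsStatement` (Artin induction for the trivial character);
* `avl_of_bn : BNStatement → AVLStatement`.

Mathlib only.  Route: `coord/S56-AVL-helper314.md`.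
-/

set_option autoImplicit false
set_option linter.style.haveILetI false
set_option linter.unusedSectionVars false

noncomputable section

namespace Fermat.Agent.S56.H314

/-! ## toolkit for additive functions -/

section AvlBasic

open Representation

variable {k : Type} [Field k] {G : Type} [Group G] {φ : Rep.{0, 0, 0} k G → ℤ}

section Basic

variable {A B C : Type} [AddCommGroup A] [Module k A] [AddCommGroup B] [Module k B]
  [AddCommGroup C] [Module k C]
  {ρA : Representation k G A} {ρB : Representation k G B} {ρC : Representation k G C}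

/-- unbundled form of additivity -/
lemma IsAdditiveFun.add_of (hφ : IsAdditiveFun φ) [FiniteDimensional k A] [FiniteDimensional k B]
    [FiniteDimensional k C] (i : A →ₗ[k] B) (π : B →ₗ[k] C)
    (hi : ∀ (g : G) (a : A), i (ρA g a) = ρB g (i a))
    (hπ : ∀ (g : G) (b : B), π (ρB g b) = ρC g (π b))
    (inj : Function.Injective i) (surj : Function.Surjective π)
    (exact : LinearMap.range i = LinearMap.ker π) :
    φ (Rep.of ρB) = φ (Rep.of ρA) + φ (Rep.of ρC) :=
  hφ (Rep.of ρA) (Rep.of ρB) (Rep.of ρC) i π ‹_› ‹_› ‹_› hi hπ inj surj exact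

lemma IsAdditiveFun.zero_of_subsingleton (hφ : IsAdditiveFun φ) [Subsingleton A]
    (ρA : Representation k G A) : φ (Rep.of ρA) = 0 := by
  have : FiniteDimensional k A := Module.Finite.of_finite
  have h := hφ.add_of (ρA := ρA) (ρB := ρA) (ρC := ρA) (LinearMap.id) (LinearMap.id)
    (fun _ _ => rfl) (fun _ _ => rfl) Function.injective_id Function.surjective_id
    (by
      ext x
      simp [Subsingleton.elim x 0])
  linarith

/-- isomorphism invariance -/
lemma IsAdditiveFun.congr (hφ : IsAdditiveFun φ) [FiniteDimensional k A]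
    (e : A ≃ₗ[k] B) (he : ∀ (g : G) (a : A), e (ρA g a) = ρB g (e a)) :
    φ (Rep.of ρA) = φ (Rep.of ρB) := by
  have : FiniteDimensional k B := Module.Finite.equiv e
  have h := hφ.add_of (ρA := ρA) (ρB := ρB) (ρC := Representation.trivial k G PUnit)
    e.toLinearMap 0 he (fun _ _ => rfl) e.injective
    (fun x => ⟨0, Subsingleton.elim _ _⟩)
    (by
      rw [LinearEquiv.range]
      ext x
      simp)
  have hz := hφ.zero_of_subsingleton (Representation.trivial k G PUnit)
  rw [h, hz, add_zero]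

lemma IsAdditiveFun.rep_eta (N : Rep.{0, 0, 0} k G) : φ N = φ (Rep.of N.ρ) := rfl

/-- `φ V = φ (ker f) + φ (range f)` -/
lemma IsAdditiveFun.ker_add_range (hφ : IsAdditiveFun φ) [FiniteDimensional k A]
    [FiniteDimensional k B]
    (f : A →ₗ[k] B) (hf : ∀ (g : G) (a : A), f (ρA g a) = ρB g (f a)) :
    φ (Rep.of ρA) =
      φ (Rep.of (ρA.subrepresentation (LinearMap.ker f) (fun g a ha => by
        rw [Submodule.mem_comap, LinearMap.mem_ker, hf, LinearMap.mem_ker.1 ha, map_zero]))) +
      φ (Rep.of (ρB.subrepresentation (LinearMap.range f) (fun g b hb => by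
        obtain ⟨a, rfl⟩ := hb
        exact ⟨ρA g a, hf g a⟩))) := by
  refine hφ.add_of (LinearMap.ker f).subtype f.rangeRestrict (fun _ _ => rfl) ?_
    Subtype.val_injective f.surjective_rangeRestrict ?_
  · intro g a
    apply Subtype.ext
    simp [hf]
  · rw [Submodule.range_subtype, LinearMap.ker_rangeRestrict]

end Basic

end AvlBasic

/-! ## additivity over disjoint unions (`SumStatement`) -/

section AvlSum

open Representation

variable {k : Type} [Field k] {G : Type} [Group G] {φ : Rep.{0, 0, 0} k G → ℤ}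

section Sum

variable {I : Type} (T : I → Type) [∀ i, MulAction G (T i)]
  {N : Type} [AddCommGroup N] [Module k N] (ρ : Representation k G N)

/-- functions on `Σ i, T i` supported on the fibres over `s` -/
def suppSub (s : Set I) : Submodule k ((Σ i, T i) → N) where
  carrier := {f | ∀ x : Σ i, T i, x.1 ∉ s → f x = 0}
  add_mem' := by
    intro f f' hf hf' x hx
    simp [hf x hx, hf' x hx]
  zero_mem' := by
    intro x _
    rfl
  smul_mem' := by
    intro c f hf x hx
    simp [hf x hx]

lemma mem_suppSub {s : Set I} {f : (Σ i, T i) → N} :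
    f ∈ suppSub (k := k) T s ↔ ∀ x : Σ i, T i, x.1 ∉ s → f x = 0 := Iff.rfl

lemma suppSub_stable (s : Set I) (g : G) :
    suppSub (k := k) T s ≤ (suppSub (k := k) T s).comap (funRho (Σ i, T i) ρ g) := by
  intro f hf x hx
  rw [funRho_apply]
  have : (g⁻¹ • x).1 = x.1 := rfl
  rw [hf (g⁻¹ • x) (by rwa [this]), map_zero]

/-- the representation on functions supported over `s` -/
abbrev suppRho (s : Set I) : Representation k G (suppSub (k := k) (N := N) T s) :=
  (funRho (Σ i, T i) ρ).subrepresentation (suppSub T s) (suppSub_stable T ρ s)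

variable [Finite I] [∀ i, Finite (T i)] [FiniteDimensional k N]

lemma phi_suppRho_insert (hφ : IsAdditiveFun φ) (s : Set I) (i : I) (hi : i ∉ s) :
    φ (Rep.of (suppRho T ρ (insert i s))) =
      φ (Rep.of (suppRho T ρ s)) + φ (Rep.of (funRho (T i) ρ)) := by
  classical
  have hle : suppSub (k := k) (N := N) T s ≤ suppSub T (insert i s) := by
    intro f hf x hx
    exact hf x (fun h => hx (Set.mem_insert_of_mem i h))
  let π : suppSub (k := k) (N := N) T (insert i s) →ₗ[k] (T i → N) :=
    { toFun := fun f t => f.1 ⟨i, t⟩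
      map_add' := fun _ _ => rfl
      map_smul' := fun _ _ => rfl }
  refine hφ.add_of (Submodule.inclusion hle) π (fun _ _ => rfl) (fun _ _ => rfl)
    (Submodule.inclusion_injective hle) ?_ ?_
  · intro h
    refine ⟨⟨fun x => if hx : x.1 = i then h (hx ▸ x.2) else 0, ?_⟩, ?_⟩
    · intro x hx
      have : x.1 ≠ i := fun h => hx (h ▸ Set.mem_insert i s)
      simp [this]
    · funext t
      simp [π]
  · ext f
    simp only [LinearMap.mem_range, LinearMap.mem_ker]
    constructor
    · rintro ⟨f', rfl⟩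
      funext t
      exact f'.2 ⟨i, t⟩ hi
    · intro hf
      refine ⟨⟨f.1, ?_⟩, rfl⟩
      intro x hx
      by_cases hxi : x.1 = i
      · obtain ⟨j, t⟩ := x
        cases hxi
        exact congrFun hf t
      · exact f.2 x (fun h => h.elim hxi hx)

lemma phi_suppRho (hφ : IsAdditiveFun φ) (s : Finset I) :
    φ (Rep.of (suppRho T ρ (s : Set I))) = ∑ i ∈ s, φ (Rep.of (funRho (T i) ρ)) := by
  classical
  induction s using Finset.induction_on with
  | empty =>
    rw [Finset.sum_empty]
    haveI : Subsingleton (suppSub (k := k) (N := N) T ((∅ : Finset I) : Set I)) := by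
      refine ⟨fun f f' => Subtype.ext ?_⟩
      funext x
      rw [f.2 x (by simp), f'.2 x (by simp)]
    exact hφ.zero_of_subsingleton _
  | insert i s hi ih =>
    rw [Finset.sum_insert hi, Finset.coe_insert,
      phi_suppRho_insert T ρ hφ (s : Set I) i (by simpa using hi), ih, add_comm]

end Sum

theorem sumStatement : SumStatement := by
  intro k _ G _ φ hφ I _ T _ _ N _ _ _ ρ
  classical
  rw [← phi_suppRho T ρ hφ Finset.univ]
  have htop : suppSub (k := k) (N := N) T ((Finset.univ : Finset I) : Set I) = ⊤ := by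
    ext f
    simp [mem_suppSub]
  symm
  refine hφ.congr ((LinearEquiv.ofEq _ _ htop).trans Submodule.topEquiv) ?_
  intro g a
  rfl

end AvlSum

/-! ## the unipotent step -/

section AvlUnip

open Representation

variable {k : Type} [Field k] {G : Type} [Group G] {φ : Rep.{0, 0, 0} k G → ℤ}

section Filtration

variable {V : Type} [AddCommGroup V] [Module k V]
  (ρ : Representation k G V) (t : V →ₗ[k] V) (ht : ∀ (g : G) (v : V), t (ρ g v) = ρ g (t v))

include ht in
lemma pow_comm_rho (i : ℕ) (g : G) (v : V) : (t ^ i) (ρ g v) = ρ g ((t ^ i) v) := by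
  induction i generalizing v with
  | zero => simp
  | succ i ih => rw [pow_succ, Module.End.mul_apply, Module.End.mul_apply, ht, ih]

include ht in
lemma kerPow_stable (i : ℕ) (g : G) :
    LinearMap.ker (t ^ i) ≤ (LinearMap.ker (t ^ i)).comap (ρ g) := by
  intro v hv
  rw [Submodule.mem_comap, LinearMap.mem_ker, pow_comm_rho ρ t ht, LinearMap.mem_ker.1 hv,
    map_zero]

/-- the representation on `ker (t ^ i)` -/
abbrev kerPowRho (i : ℕ) : Representation k G (LinearMap.ker (t ^ i)) :=
  ρ.subrepresentation (LinearMap.ker (t ^ i)) (kerPow_stable ρ t ht i)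

variable [FiniteDimensional k V]

lemma phi_kerPow_succ (hφ : IsAdditiveFun φ) (q : ℕ)
    (hker : LinearMap.ker t ≤ LinearMap.range (t ^ (q - 1)))
    (htq : t ^ q = 0) (i : ℕ) (hi : i < q) :
    φ (Rep.of (kerPowRho ρ t ht (i + 1))) =
      φ (Rep.of (kerPowRho ρ t ht i)) + φ (Rep.of (kerPowRho ρ t ht 1)) := by
  have hle : LinearMap.ker (t ^ i) ≤ LinearMap.ker (t ^ (i + 1)) := by
    intro v hv
    rw [LinearMap.mem_ker, pow_succ', Module.End.mul_apply, LinearMap.mem_ker.1 hv, map_zero]
  let π : LinearMap.ker (t ^ (i + 1)) →ₗ[k] LinearMap.ker (t ^ 1) :=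
    ((t ^ i).comp (LinearMap.ker (t ^ (i + 1))).subtype).codRestrict _ (by
      intro v
      rw [LinearMap.mem_ker, LinearMap.comp_apply, ← Module.End.mul_apply, ← pow_add,
        add_comm 1 i]
      exact LinearMap.mem_ker.1 v.2)
  refine hφ.add_of (Submodule.inclusion hle) π (fun _ _ => rfl) ?_
    (Submodule.inclusion_injective hle) ?_ ?_
  · intro g v
    apply Subtype.ext
    exact pow_comm_rho ρ t ht i g v.1
  · intro y
    have hy : (y : V) ∈ LinearMap.ker t := by
      have h1 : (t ^ 1) (y : V) = 0 := LinearMap.mem_ker.1 y.2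
      exact LinearMap.mem_ker.2 (by simp)
    obtain ⟨z, hz⟩ := hker hy
    have hsplit : q - 1 = i + (q - 1 - i) := by omega
    refine ⟨⟨(t ^ (q - 1 - i)) z, ?_⟩, ?_⟩
    · rw [LinearMap.mem_ker, ← Module.End.mul_apply, ← pow_add]
      have : i + 1 + (q - 1 - i) = q := by omega
      rw [this, htq]
      rfl
    · apply Subtype.ext
      show (t ^ i) ((t ^ (q - 1 - i)) z) = y
      rw [← Module.End.mul_apply, ← pow_add, ← hsplit, hz]
  · ext v
    simp only [LinearMap.mem_range, LinearMap.mem_ker]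
    constructor
    · rintro ⟨w, rfl⟩
      apply Subtype.ext
      exact LinearMap.mem_ker.1 w.2
    · intro hv
      refine ⟨⟨v.1, ?_⟩, rfl⟩
      have := congrArg Subtype.val hv
      exact this

/-- **Filtration lemma.**  `t` equivariant, `t ^ q = 0`, `ker t ≤ range (t ^ (q - 1))`:
`φ V = q • φ (ker t)`. -/
lemma phi_eq_mul_ker (hφ : IsAdditiveFun φ) (q : ℕ) (_hq : 0 < q)
    (hker : LinearMap.ker t ≤ LinearMap.range (t ^ (q - 1))) (htq : t ^ q = 0) :
    φ (Rep.of ρ) = q * φ (Rep.of (kerPowRho ρ t ht 1)) := by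
  have key : ∀ i, i ≤ q →
      φ (Rep.of (kerPowRho ρ t ht i)) = i * φ (Rep.of (kerPowRho ρ t ht 1)) := by
    intro i
    induction i with
    | zero =>
      intro _
      have hs : Subsingleton (LinearMap.ker (t ^ 0)) := by
        refine ⟨fun a b => Subtype.ext ?_⟩
        have h0 : LinearMap.ker (t ^ 0) = ⊥ := by
          rw [pow_zero]
          exact LinearMap.ker_id
        have ha' : (a : V) = 0 := (Submodule.mem_bot k).1 (h0 ▸ a.2)
        have hb' : (b : V) = 0 := (Submodule.mem_bot k).1 (h0 ▸ b.2)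
        exact ha'.trans hb'.symm
      rw [hφ.zero_of_subsingleton]
      simp
    | succ i ih =>
      intro hi
      rw [phi_kerPow_succ ρ t ht hφ q hker htq i (by omega), ih (by omega)]
      push_cast
      ring
  rw [← key q le_rfl]
  have htop : LinearMap.ker (t ^ q) = ⊤ := by
    rw [htq]
    exact LinearMap.ker_zero
  symm
  refine hφ.congr ((LinearEquiv.ofEq _ _ htop).trans Submodule.topEquiv) ?_
  intro g a
  rfl

end Filtration

/-! ### polynomial identities in characteristic `p` -/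

open Polynomial in
lemma poly_sub_one_pow_pred (k : Type) [Field k] (p : ℕ) [Fact p.Prime] [CharP k p] (n : ℕ) :
    ((X : k[X]) - 1) ^ (p ^ n - 1) = ∑ j ∈ Finset.range (p ^ n), (X : k[X]) ^ j := by
  have hq : 0 < p ^ n := pow_pos (Fact.out : p.Prime).pos n
  have h1 : ((X : k[X]) - 1) * ((X : k[X]) - 1) ^ (p ^ n - 1) =
      ((X : k[X]) - 1) * ∑ j ∈ Finset.range (p ^ n), (X : k[X]) ^ j := by
    rw [mul_geom_sum, ← pow_succ', Nat.sub_add_cancel hq, sub_pow_char_pow, one_pow]
  have hne : (X : k[X]) - 1 ≠ 0 := by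
    have := X_sub_C_ne_zero (1 : k)
    simpa using this
  exact mul_left_cancel₀ hne h1

open Polynomial in
lemma alg_sub_one_pow_pred (p : ℕ) [Fact p.Prime] [CharP k p] {A : Type} [Ring A]
    [Algebra k A] (s : A) (n : ℕ) :
    (s - 1) ^ (p ^ n - 1) = ∑ j ∈ Finset.range (p ^ n), s ^ j := by
  have := congrArg (aeval (R := k) s) (poly_sub_one_pow_pred k p n)
  simpa using this

open Polynomial in
lemma alg_sub_one_pow (p : ℕ) [Fact p.Prime] [CharP k p] {A : Type} [Ring A]
    [Algebra k A] (s : A) (n : ℕ) :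
    (s - 1) ^ (p ^ n) = s ^ (p ^ n) - 1 := by
  have h : ((X : k[X]) - 1) ^ (p ^ n) = (X : k[X]) ^ (p ^ n) - 1 := by
    rw [sub_pow_char_pow, one_pow]
  have := congrArg (aeval (R := k) s) h
  simpa using this

section RMul

variable (c : G) (q : ℕ)

/-- right multiplication by `c` on `G ⧸ ⟨c ^ q⟩` -/
def rmulQ : G ⧸ Subgroup.zpowers (c ^ q) → G ⧸ Subgroup.zpowers (c ^ q) :=
  Quotient.map' (fun x => x * c) (by
    intro x y h
    rw [QuotientGroup.leftRel_apply] at h ⊢
    obtain ⟨z, hz⟩ := Subgroup.mem_zpowers_iff.1 h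
    refine Subgroup.mem_zpowers_iff.2 ⟨z, ?_⟩
    have hc : Commute c ((c ^ q) ^ z) := ((Commute.refl c).pow_right q).zpow_right z
    have : (x * c)⁻¹ * (y * c) = c⁻¹ * (x⁻¹ * y) * c := by group
    rw [this, ← hz, mul_assoc, ← hc.eq, inv_mul_cancel_left])

@[simp] lemma rmulQ_mk (x : G) :
    rmulQ c q (x : G ⧸ Subgroup.zpowers (c ^ q)) = ((x * c : G) : G ⧸ Subgroup.zpowers (c ^ q)) :=
  rfl

lemma rmulQ_smul (g : G) (x : G ⧸ Subgroup.zpowers (c ^ q)) :
    rmulQ c q (g • x) = g • rmulQ c q x := by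
  induction x using QuotientGroup.induction_on with
  | H a =>
    show (((g * a) * c : G) : G ⧸ Subgroup.zpowers (c ^ q)) = ((g * (a * c) : G) : G ⧸ _)
    rw [mul_assoc]

lemma rmulQ_iterate_mk (j : ℕ) (x : G) :
    (rmulQ c q)^[j] (x : G ⧸ Subgroup.zpowers (c ^ q)) =
      ((x * c ^ j : G) : G ⧸ Subgroup.zpowers (c ^ q)) := by
  induction j generalizing x with
  | zero => simp
  | succ j ih => rw [Function.iterate_succ_apply, rmulQ_mk, ih, mul_assoc, ← pow_succ']

lemma rmulQ_iterate_q (x : G ⧸ Subgroup.zpowers (c ^ q)) : (rmulQ c q)^[q] x = x := by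
  induction x using QuotientGroup.induction_on with
  | H a =>
    rw [rmulQ_iterate_mk]
    rw [QuotientGroup.eq]
    have : (a * c ^ q)⁻¹ * a = (c ^ q)⁻¹ := by group
    rw [this]
    exact inv_mem (Subgroup.mem_zpowers _)

lemma zpowers_pow_le : Subgroup.zpowers (c ^ q) ≤ Subgroup.zpowers c :=
  (Subgroup.zpowers_le).2 (pow_mem (Subgroup.mem_zpowers c) q)

/-- the projection `G ⧸ ⟨c ^ q⟩ → G ⧸ ⟨c⟩` -/
abbrev projQ : G ⧸ Subgroup.zpowers (c ^ q) → G ⧸ Subgroup.zpowers c :=
  Subgroup.quotientMapOfLE (zpowers_pow_le c q)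

lemma projQ_rmulQ (x : G ⧸ Subgroup.zpowers (c ^ q)) : projQ c q (rmulQ c q x) = projQ c q x := by
  induction x using QuotientGroup.induction_on with
  | H a =>
    show ((a * c : G) : G ⧸ Subgroup.zpowers c) = ((a : G) : G ⧸ Subgroup.zpowers c)
    rw [QuotientGroup.eq]
    have : (a * c)⁻¹ * a = c⁻¹ := by group
    rw [this]
    exact inv_mem (Subgroup.mem_zpowers c)

lemma projQ_iterate (j : ℕ) (x : G ⧸ Subgroup.zpowers (c ^ q)) :
    projQ c q ((rmulQ c q)^[j] x) = projQ c q x := by
  induction j with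
  | zero => rfl
  | succ j ih => rw [Function.iterate_succ_apply', projQ_rmulQ, ih]

lemma projQ_smul (g : G) (x : G ⧸ Subgroup.zpowers (c ^ q)) :
    projQ c q (g • x) = g • projQ c q x := by
  induction x using QuotientGroup.induction_on with
  | H a => rfl

lemma projQ_surjective : Function.Surjective (projQ c q) := by
  intro y
  induction y using QuotientGroup.induction_on with
  | H a => exact ⟨(a : G ⧸ Subgroup.zpowers (c ^ q)), rfl⟩

/-- transitivity on the fibres -/
lemma exists_iterate_eq (hq : 0 < q) (x y : G ⧸ Subgroup.zpowers (c ^ q))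
    (h : projQ c q x = projQ c q y) : ∃ j, j < q ∧ (rmulQ c q)^[j] x = y := by
  induction x using QuotientGroup.induction_on with
  | H a =>
  induction y using QuotientGroup.induction_on with
  | H b =>
    have h' : ((a : G) : G ⧸ Subgroup.zpowers c) = ((b : G) : G ⧸ Subgroup.zpowers c) := h
    rw [QuotientGroup.eq] at h'
    obtain ⟨z, hz⟩ := Subgroup.mem_zpowers_iff.1 h'
    have hqz : (q : ℤ) ≠ 0 := by exact_mod_cast hq.ne'
    refine ⟨(z % q).toNat, ?_, ?_⟩
    · have h1 := Int.emod_lt_of_pos z (by exact_mod_cast hq : (0 : ℤ) < q)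
      have h2 := Int.emod_nonneg z hqz
      omega
    · rw [rmulQ_iterate_mk, QuotientGroup.eq]
      have h2 := Int.emod_nonneg z hqz
      have hj : c ^ (z % q).toNat = c ^ (z % q) := by
        rw [← zpow_natCast, Int.toNat_of_nonneg h2]
      have hzz : z = z % q + q * (z / q) := (Int.emod_add_mul_ediv z q).symm
      have : (a * c ^ (z % q).toNat)⁻¹ * b = (c ^ q) ^ (z / q) := by
        rw [hj, mul_inv_rev, mul_assoc, ← hz, ← zpow_natCast, ← zpow_mul, ← zpow_neg,
          ← zpow_add]
        congr 1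
        omega
      rw [this]
      exact Subgroup.zpow_mem_zpowers _ _

/-- freeness -/
lemma dvd_of_iterate_eq (hq : q ∣ orderOf c) (j : ℕ) (x : G ⧸ Subgroup.zpowers (c ^ q))
    (h : (rmulQ c q)^[j] x = x) : q ∣ j := by
  induction x using QuotientGroup.induction_on with
  | H a =>
    rw [rmulQ_iterate_mk, QuotientGroup.eq] at h
    have : (a * c ^ j)⁻¹ * a = (c ^ j)⁻¹ := by group
    rw [this, inv_mem_iff] at h
    obtain ⟨z, hz⟩ := Subgroup.mem_zpowers_iff.1 h
    rw [← zpow_natCast, ← zpow_mul, ← zpow_natCast c j, zpow_eq_zpow_iff_modEq] at hz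
    have h1 : (q : ℤ) ∣ (orderOf c : ℤ) := by exact_mod_cast hq
    have h2 : (q : ℤ) ∣ (j : ℤ) - q * z := by
      have := hz.dvd
      exact h1.trans this
    have h3 : (q : ℤ) ∣ (j : ℤ) := by
      have := dvd_add h2 (Dvd.intro z rfl : (q : ℤ) ∣ q * z)
      simpa using this
    exact_mod_cast h3

lemma iterate_injOn (hq : q ∣ orderOf c) (x : G ⧸ Subgroup.zpowers (c ^ q)) (i j : ℕ)
    (hi : i < q) (hj : j < q) (h : (rmulQ c q)^[i] x = (rmulQ c q)^[j] x) : i = j := by
  wlog hij : i ≤ j generalizing i j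
  · exact (this j i hj hi h.symm (by omega)).symm
  have h1 : (rmulQ c q)^[j - i] ((rmulQ c q)^[i] x) = (rmulQ c q)^[i] x := by
    rw [← Function.iterate_add_apply, Nat.sub_add_cancel hij, h]
  have h2 := dvd_of_iterate_eq c q hq (j - i) _ h1
  have h3 : j - i < q := by omega
  have h4 : j - i = 0 := Nat.eq_zero_of_dvd_of_lt h2 h3
  omega

end RMul

section UnipMain

variable (c : G) (q : ℕ) {N : Type} [AddCommGroup N] [Module k N] (ρ : Representation k G N)

/-- pull-back along right multiplication -/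
def pullS : ((G ⧸ Subgroup.zpowers (c ^ q)) → N) →ₗ[k] ((G ⧸ Subgroup.zpowers (c ^ q)) → N) :=
  LinearMap.funLeft k N (rmulQ c q)

@[simp] lemma pullS_apply (f : (G ⧸ Subgroup.zpowers (c ^ q)) → N)
    (x : G ⧸ Subgroup.zpowers (c ^ q)) : pullS (k := k) c q f x = f (rmulQ c q x) := rfl

lemma pullS_pow_apply (j : ℕ) (f : (G ⧸ Subgroup.zpowers (c ^ q)) → N)
    (x : G ⧸ Subgroup.zpowers (c ^ q)) :
    ((pullS (k := k) c q) ^ j) f x = f ((rmulQ c q)^[j] x) := by
  induction j generalizing x with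
  | zero => rfl
  | succ j ih =>
    rw [pow_succ', Module.End.mul_apply, pullS_apply, ih, Function.iterate_succ_apply]

lemma pullS_pow_q : (pullS (k := k) (N := N) c q) ^ q = 1 := by
  ext f x
  rw [pullS_pow_apply, rmulQ_iterate_q]
  rfl

lemma pullS_equivariant (g : G) (f : (G ⧸ Subgroup.zpowers (c ^ q)) → N) :
    pullS (k := k) c q (funRho _ ρ g f) = funRho _ ρ g (pullS (k := k) c q f) := by
  funext x
  simp only [pullS_apply, funRho_apply, rmulQ_smul]

/-- `t = S - 1` -/
def pullT : ((G ⧸ Subgroup.zpowers (c ^ q)) → N) →ₗ[k] ((G ⧸ Subgroup.zpowers (c ^ q)) → N) :=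
  pullS c q - 1

lemma pullT_equivariant (g : G) (f : (G ⧸ Subgroup.zpowers (c ^ q)) → N) :
    pullT (k := k) c q (funRho _ ρ g f) = funRho _ ρ g (pullT (k := k) c q f) := by
  simp only [pullT, LinearMap.sub_apply, Module.End.one_apply, pullS_equivariant, map_sub]

lemma mem_ker_pullT {f : (G ⧸ Subgroup.zpowers (c ^ q)) → N} :
    f ∈ LinearMap.ker (pullT (k := k) c q) ↔ ∀ x, f (rmulQ c q x) = f x := by
  rw [LinearMap.mem_ker, pullT, LinearMap.sub_apply, sub_eq_zero]
  constructor
  · intro h x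
    exact congrFun h x
  · intro h
    funext x
    exact h x

lemma ker_pullT_iterate {f : (G ⧸ Subgroup.zpowers (c ^ q)) → N}
    (hf : f ∈ LinearMap.ker (pullT (k := k) c q)) (j : ℕ) (x : G ⧸ Subgroup.zpowers (c ^ q)) :
    f ((rmulQ c q)^[j] x) = f x := by
  induction j with
  | zero => rfl
  | succ j ih => rw [Function.iterate_succ_apply', (mem_ker_pullT c q).1 hf, ih]

variable (p : ℕ) [Fact p.Prime] [CharP k p] (n : ℕ)

lemma pullT_pow_q : (pullT (k := k) (N := N) c (p ^ n)) ^ (p ^ n) = 0 := by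
  rw [pullT, alg_sub_one_pow (k := k) p, pullS_pow_q, sub_self]

lemma ker_pullT_le_range (hq : p ^ n ∣ orderOf c) :
    LinearMap.ker (pullT (k := k) (N := N) c (p ^ n)) ≤
      LinearMap.range ((pullT (k := k) (N := N) c (p ^ n)) ^ (p ^ n - 1)) := by
  classical
  intro f hf
  have hqpos : 0 < p ^ n := pow_pos (Fact.out : p.Prime).pos n
  let s : G ⧸ Subgroup.zpowers c → G ⧸ Subgroup.zpowers (c ^ (p ^ n)) :=
    Function.surjInv (projQ_surjective c (p ^ n))
  have hs : ∀ y, projQ c (p ^ n) (s y) = y := Function.surjInv_eq (projQ_surjective c (p ^ n))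
  refine ⟨fun x => if x = s (projQ c (p ^ n) x) then f x else 0, ?_⟩
  rw [pullT, alg_sub_one_pow_pred (k := k) p]
  funext x
  rw [LinearMap.sum_apply, Finset.sum_apply]
  obtain ⟨j₀, hj₀, hj₀'⟩ := exists_iterate_eq c (p ^ n) hqpos x (s (projQ c (p ^ n) x))
    (by rw [hs])
  rw [Finset.sum_eq_single j₀]
  · rw [pullS_pow_apply]
    show (if _ = s (projQ c (p ^ n) _) then f _ else 0) = f x
    rw [projQ_iterate, if_pos hj₀', ker_pullT_iterate c (p ^ n) hf]
  · intro j hj hne
    rw [pullS_pow_apply]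
    show (if _ = s (projQ c (p ^ n) _) then f _ else 0) = 0
    rw [projQ_iterate, if_neg]
    intro h
    exact hne (iterate_injOn c (p ^ n) hq x j j₀ (Finset.mem_range.1 hj) hj₀ (h.trans hj₀'.symm))
  · intro h
    exact absurd (Finset.mem_range.2 hj₀) h

/-- pull-back along `G ⧸ ⟨c ^ q⟩ → G ⧸ ⟨c⟩` -/
def pullP : ((G ⧸ Subgroup.zpowers c) → N) →ₗ[k] ((G ⧸ Subgroup.zpowers (c ^ q)) → N) :=
  LinearMap.funLeft k N (projQ c q)

omit [Fact p.Prime] [CharP k p] in
lemma range_pullP (hq : 0 < q) :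
    LinearMap.range (pullP (k := k) (N := N) c q) = LinearMap.ker ((pullT (k := k) c q) ^ 1) := by
  rw [pow_one]
  ext f
  rw [mem_ker_pullT]
  constructor
  · rintro ⟨h, rfl⟩ x
    show h (projQ c q (rmulQ c q x)) = h (projQ c q x)
    rw [projQ_rmulQ]
  · intro hf
    have hf' : f ∈ LinearMap.ker (pullT (k := k) c q) := (mem_ker_pullT c q).2 hf
    let s : G ⧸ Subgroup.zpowers c → G ⧸ Subgroup.zpowers (c ^ q) :=
      Function.surjInv (projQ_surjective c q)
    have hs : ∀ y, projQ c q (s y) = y := Function.surjInv_eq (projQ_surjective c q)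
    refine ⟨f ∘ s, ?_⟩
    funext x
    show f (s (projQ c q x)) = f x
    obtain ⟨j, -, hj⟩ := exists_iterate_eq c q hq x (s (projQ c q x)) (by rw [hs])
    rw [← hj, ker_pullT_iterate c q hf']

theorem unip_zpowers [Finite G] [FiniteDimensional k N] (hφ : IsAdditiveFun φ)
    (hq : p ^ n ∣ orderOf c) :
    φ (Rep.of (funRho (G ⧸ Subgroup.zpowers (c ^ (p ^ n))) ρ)) =
      ((p ^ n : ℕ) : ℤ) * φ (Rep.of (funRho (G ⧸ Subgroup.zpowers c) ρ)) := by
  have hqpos : 0 < p ^ n := pow_pos (Fact.out : p.Prime).pos n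
  rw [phi_eq_mul_ker (funRho (G ⧸ Subgroup.zpowers (c ^ (p ^ n))) ρ) (pullT (k := k) c (p ^ n))
    (pullT_equivariant c (p ^ n) ρ) hφ (p ^ n) hqpos (ker_pullT_le_range c p n hq)
    (pullT_pow_q c p n)]
  congr 1
  symm
  have hinj : Function.Injective (pullP (k := k) (N := N) c (p ^ n)) :=
    LinearMap.funLeft_injective_of_surjective _ _ _ (projQ_surjective c (p ^ n))
  refine hφ.congr ((LinearEquiv.ofInjective _ hinj).trans
    (LinearEquiv.ofEq _ _ (range_pullP c (p ^ n) hqpos))) ?_
  intro g f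
  apply Subtype.ext
  funext x
  show ρ g (f (g⁻¹ • projQ c (p ^ n) x)) = ρ g (f (projQ c (p ^ n) (g⁻¹ • x)))
  rw [projQ_smul]

end UnipMain

end AvlUnip

/-! ## Artin induction for the trivial character (`ArtinSetsStatement`) -/

section AvlArtin

open scoped Classical in
/-- On a finite partial order there is an integer weight with `∑_{b ≥ a} w b = 1` for all `a`. -/
lemma exists_upper_weight (P : Type) [Fintype P] [PartialOrder P] :
    ∃ w : P → ℤ, ∀ a : P, ∑ b ∈ Finset.univ.filter (fun b => a ≤ b), w b = 1 := by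
  have hwf : WellFounded (fun a b : P => b < a) := wellFounded_gt
  let F : (a : P) → ((b : P) → a < b → ℤ) → ℤ := fun a rec =>
    1 - ∑ b ∈ (Finset.univ.filter (fun b => a < b)).attach,
      rec b.1 (Finset.mem_filter.1 b.2).2
  refine ⟨hwf.fix F, fun a => ?_⟩
  have hfix := hwf.fix_eq F a
  have hsplit : Finset.univ.filter (fun b => a ≤ b) =
      insert a (Finset.univ.filter (fun b => a < b)) := by
    ext b
    simp only [Finset.mem_filter, Finset.mem_univ, true_and, Finset.mem_insert]
    constructor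
    · intro h
      rcases eq_or_lt_of_le h with h | h
      · exact Or.inl h.symm
      · exact Or.inr h
    · rintro (h | h)
      · exact h ▸ le_rfl
      · exact h.le
  rw [hsplit, Finset.sum_insert (by simp), hfix]
  simp only [F]
  rw [Finset.sum_attach (Finset.univ.filter (fun b => a < b)) (fun b => hwf.fix F b)]
  ring

variable {G : Type} [Group G]

/-- `|C| * marks (G/C) g = #{x | x⁻¹ g x ∈ C}` -/
lemma card_mul_marks [Finite G] (C : Subgroup G) (g : G) :
    Nat.card C * marks (G ⧸ C) g = Nat.card {x : G // x⁻¹ * g * x ∈ C} := by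
  have e := QuotientGroup.preimageMkEquivSubgroupProdSet C {y : G ⧸ C | g • y = y}
  have h1 : Nat.card (QuotientGroup.mk ⁻¹' {y : G ⧸ C | g • y = y}) =
      Nat.card C * marks (G ⧸ C) g := by
    rw [Nat.card_congr e, Nat.card_prod]
    rfl
  rw [← h1]
  apply Nat.card_congr
  refine Equiv.subtypeEquivRight (fun x => ?_)
  show g • (x : G ⧸ C) = (x : G ⧸ C) ↔ _
  rw [show g • (x : G ⧸ C) = ((g * x : G) : G ⧸ C) from rfl, QuotientGroup.eq]
  have : (g * x)⁻¹ * x = (x⁻¹ * g * x)⁻¹ := by group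
  rw [this, inv_mem_iff]

open scoped Classical in
/-- weights on subgroups, supported on cyclic subgroups, with `∑_{C ∋ h} w C = 1` -/
lemma exists_cyclic_weight [Fintype (Subgroup G)] :
    ∃ w : Subgroup G → ℤ, (∀ C, w C ≠ 0 → IsCyclic C) ∧
      ∀ h : G, ∑ C : Subgroup G, (if h ∈ C then w C else 0) = 1 := by
  obtain ⟨w0, hw0⟩ := exists_upper_weight {C : Subgroup G // IsCyclic C}
  refine ⟨fun C => if h : IsCyclic C then w0 ⟨C, h⟩ else 0, ?_, ?_⟩
  · intro C hC
    by_contra hcyc
    exact hC (dif_neg hcyc)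
  · intro h
    have ha : IsCyclic (Subgroup.zpowers h) := inferInstance
    have key := hw0 ⟨Subgroup.zpowers h, ha⟩
    rw [Finset.sum_filter] at key
    rw [← key]
    have hsub : ∀ C : Subgroup G, C ∈ (Finset.univ.filter (fun C : Subgroup G => IsCyclic C)) ↔
        IsCyclic C := fun C => by simp
    have e1 := Finset.sum_subtype (F := inferInstance)
      (Finset.univ.filter (fun C : Subgroup G => IsCyclic C)) hsub
      (fun C => if h ∈ C then (if hc : IsCyclic C then w0 ⟨C, hc⟩ else 0) else 0)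
    have e2 : ∑ C ∈ Finset.univ.filter (fun C : Subgroup G => IsCyclic C),
        (if h ∈ C then (if hc : IsCyclic C then w0 ⟨C, hc⟩ else 0) else 0) =
        ∑ C : Subgroup G, (if h ∈ C then (if hc : IsCyclic C then w0 ⟨C, hc⟩ else 0) else 0) := by
      apply Finset.sum_filter_of_ne
      intro C _ hne
      by_contra hcyc
      apply hne
      rw [dif_neg hcyc, ite_self]
    show ∑ C : Subgroup G, (if h ∈ C then (if hc : IsCyclic C then w0 ⟨C, hc⟩ else 0) else 0) = _
    rw [← e2, e1]
    apply Finset.sum_congr rfl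
    rintro ⟨C, hC⟩ _
    have hiff : h ∈ C ↔ (⟨Subgroup.zpowers h, ha⟩ : {C : Subgroup G // IsCyclic C}) ≤ ⟨C, hC⟩ := by
      rw [Subtype.mk_le_mk, Subgroup.zpowers_le]
    simp only [hiff, dif_pos hC]

theorem artinSets : ArtinSetsStatement := by
  intro G _ _
  classical
  letI : Fintype G := Fintype.ofFinite G
  letI : Fintype (Subgroup G) := Fintype.ofFinite _
  obtain ⟨w, hwc, hw⟩ := exists_cyclic_weight (G := G)
  refine ⟨Σ C : Subgroup G, Fin (w C).toNat × C, Σ C : Subgroup G, Fin (-w C).toNat × C,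
    inferInstance, inferInstance, fun i => i.1, fun j => j.1, ?_, ?_, ?_⟩
  · rintro ⟨C, i, -⟩
    apply hwc
    intro h0
    have := i.2
    simp [h0] at this
  · rintro ⟨C, i, -⟩
    apply hwc
    intro h0
    have := i.2
    simp [h0] at this
  · intro g
    have hI : ∀ (f : Subgroup G → ℤ),
        ∑ i : (Σ C : Subgroup G, Fin (f C).toNat × C), marks (G ⧸ i.1) g =
          ∑ C : Subgroup G, (f C).toNat * (Nat.card C * marks (G ⧸ C) g) := by
      intro f
      rw [Fintype.sum_sigma]
      apply Finset.sum_congr rfl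
      intro C _
      show ∑ _y : Fin (f C).toNat × C, marks (G ⧸ C) g = _
      rw [Finset.sum_const, Finset.card_univ, Fintype.card_prod, Fintype.card_fin, smul_eq_mul,
        Nat.card_eq_fintype_card, mul_assoc]
    rw [hI w, hI (fun C => -w C)]
    have hm : ∀ C : Subgroup G, ((Nat.card C * marks (G ⧸ C) g : ℕ) : ℤ) =
        ∑ x : G, if x⁻¹ * g * x ∈ C then (1 : ℤ) else 0 := by
      intro C
      rw [card_mul_marks, Nat.card_eq_fintype_card, Fintype.card_subtype, Finset.sum_boole]
    have hZ : (∑ C : Subgroup G, (w C) * ((Nat.card C * marks (G ⧸ C) g : ℕ) : ℤ)) =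
        (Nat.card G : ℤ) := by
      simp_rw [hm, Finset.mul_sum]
      rw [Finset.sum_comm]
      have : ∀ x : G, ∑ C : Subgroup G, w C * (if x⁻¹ * g * x ∈ C then (1 : ℤ) else 0) = 1 := by
        intro x
        refine Eq.trans ?_ (hw (x⁻¹ * g * x))
        apply Finset.sum_congr rfl
        intro C _
        split_ifs <;> simp
      simp_rw [this]
      simp [Nat.card_eq_fintype_card]
    have hcast : ((∑ C : Subgroup G, (w C).toNat * (Nat.card C * marks (G ⧸ C) g) : ℕ) : ℤ) =
        ((Nat.card G + ∑ C : Subgroup G, (-w C).toNat * (Nat.card C * marks (G ⧸ C) g) : ℕ) : ℤ) := by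
      push_cast at hZ ⊢
      rw [← hZ, ← Finset.sum_add_distrib]
      apply Finset.sum_congr rfl
      intro C _
      have h1 : ((w C).toNat : ℤ) - ((-w C).toNat : ℤ) = w C := Int.toNat_sub_toNat_neg (w C)
      have h2 : ((w C).toNat : ℤ) = w C + ((-w C).toNat : ℤ) := by linarith
      rw [h2]
      ring
    exact_mod_cast hcast

end AvlArtin

/-! ## glue `BNStatement → AVLStatement` -/

section AvlGlue

open Representation

variable {k : Type} [Field k] {G : Type} [Group G] {φ : Rep.{0, 0, 0} k G → ℤ}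

section Models

variable (U : Subgroup G) {N : Type} [AddCommGroup N] [Module k N]
  (ρ : Representation k G N)

/-- the `Finsupp` model and the function model of `N[G/U]` agree -/
lemma avlIndAct_apply (g : G) (F : (G ⧸ U) →₀ N) (x : G ⧸ U) :
    (avlIndAct U (Rep.of ρ) g F) x = ρ g (F (g⁻¹ • x)) := by
  classical
  induction F using Finsupp.induction_linear with
  | zero => simp
  | add F F' hF hF' =>
    rw [map_add, Finsupp.add_apply, hF, hF', Finsupp.add_apply, map_add]
  | single y m =>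
    rw [avlIndAct_single, Finsupp.single_apply, Finsupp.single_apply]
    by_cases h : g • y = x
    · rw [if_pos h, if_pos (by rw [← h, inv_smul_smul])]
    · rw [if_neg h, if_neg (fun h' => h (by rw [h', smul_inv_smul])), map_zero]

lemma phi_funRho_eq_ind [Finite G] [FiniteDimensional k N] (hφ : IsAdditiveFun φ) :
    φ (Rep.of (funRho (G ⧸ U) ρ)) = φ (avlIndRep U (Rep.of ρ)) := by
  symm
  have : FiniteDimensional k ((G ⧸ U) →₀ N) :=
    Module.Finite.equiv (Finsupp.linearEquivFunOnFinite k N (G ⧸ U)).symm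
  refine hφ.congr (ρA := avlIndRho U (Rep.of ρ)) (Finsupp.linearEquivFunOnFinite k N (G ⧸ U)) ?_
  intro g F
  funext x
  exact avlIndAct_apply U ρ g F x

end Models

section Cyclic

variable (p : ℕ) [Fact p.Prime] [CharP k p] [Finite G]

/-- reduction from cyclic subgroups to cyclic `p'`-subgroups -/
lemma phi_cyclic_eq_zero (hφ : IsAdditiveFun φ)
    (hind : ∀ (C : Subgroup G), IsCyclic C → ¬ p ∣ Nat.card C →
      ∀ N : Rep.{0, 0, 0} k G, FiniteDimensional k N → φ (avlIndRep C N) = 0)
    (C : Subgroup G) (hC : IsCyclic C) {N : Type} [AddCommGroup N] [Module k N]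
    [FiniteDimensional k N] (ρ : Representation k G N) :
    φ (Rep.of (funRho (G ⧸ C) ρ)) = 0 := by
  obtain ⟨⟨c, hcC⟩, hc⟩ := hC.exists_generator
  have hCeq : C = Subgroup.zpowers c := by
    apply le_antisymm
    · intro x hx
      obtain ⟨z, hz⟩ := Subgroup.mem_zpowers_iff.1 (hc ⟨x, hx⟩)
      have := congrArg Subtype.val hz
      simp only [Subgroup.coe_zpow] at this
      exact Subgroup.mem_zpowers_iff.2 ⟨z, this⟩
    · exact Subgroup.zpowers_le.2 hcC
  subst hCeq
  have hord : orderOf c ≠ 0 := (orderOf_pos c).ne'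
  obtain ⟨n, m, hm, hnm⟩ := Nat.exists_eq_pow_mul_and_not_dvd hord p (Fact.out : p.Prime).ne_one
  have hdvd : p ^ n ∣ orderOf c := ⟨m, hnm⟩
  have hqpos : 0 < p ^ n := pow_pos (Fact.out : p.Prime).pos n
  have hcard : Nat.card (Subgroup.zpowers (c ^ (p ^ n))) = m := by
    rw [Nat.card_zpowers, orderOf_pow_of_dvd hqpos.ne' hdvd, hnm, Nat.mul_div_cancel_left _ hqpos]
  have h0 : φ (Rep.of (funRho (G ⧸ Subgroup.zpowers (c ^ (p ^ n))) ρ)) = 0 := by
    rw [phi_funRho_eq_ind _ ρ hφ]
    exact hind _ inferInstance (by rwa [hcard]) (Rep.of ρ) ‹_›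
  have h1 := unip_zpowers (φ := φ) c ρ p n hφ hdvd
  rw [h0] at h1
  have h2 : ((p ^ n : ℕ) : ℤ) ≠ 0 := by exact_mod_cast hqpos.ne'
  rcases mul_eq_zero.1 h1.symm with h | h
  · exact absurd h h2
  · exact h

end Cyclic

section Marks

/-- marks of a disjoint union -/
lemma marks_sigma {I : Type} [Fintype I] (T : I → Type) [∀ i, Finite (T i)]
    [∀ i, MulAction G (T i)] (g : G) :
    marks (Σ i, T i) g = ∑ i, marks (T i) g := by
  classical
  unfold marks
  have e : {x : Σ i, T i // g • x = x} ≃ Σ i, {t : T i // g • t = t} :=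
    { toFun := fun x => ⟨x.1.1, ⟨x.1.2, by
        have h := x.2
        obtain ⟨⟨i, t⟩, hx⟩ := x
        have h' : (⟨i, g • t⟩ : Σ i, T i) = ⟨i, t⟩ := hx
        simpa using h'⟩⟩
      invFun := fun y => ⟨⟨y.1, y.2.1⟩, by
        show (⟨y.1, g • y.2.1⟩ : Σ i, T i) = ⟨y.1, y.2.1⟩
        rw [y.2.2]⟩
      left_inv := fun x => by
        obtain ⟨⟨i, t⟩, hx⟩ := x
        rfl
      right_inv := fun y => by
        obtain ⟨i, t, ht⟩ := y
        rfl }
  rw [Nat.card_congr e, Nat.card_sigma]

lemma marks_top (g : G) : marks (G ⧸ (⊤ : Subgroup G)) g = 1 := by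
  unfold marks
  have : Subsingleton (G ⧸ (⊤ : Subgroup G)) := QuotientGroup.subsingleton_quotient_top
  have hu : Unique {x : G ⧸ (⊤ : Subgroup G) // g • x = x} :=
    { default := ⟨((1 : G) : G ⧸ (⊤ : Subgroup G)), Subsingleton.elim _ _⟩
      uniq := fun x => Subtype.ext (Subsingleton.elim _ _) }
  exact Nat.card_unique

end Marks

section Point

variable {N : Type} [AddCommGroup N] [Module k N] [FiniteDimensional k N]
  (ρ : Representation k G N)

lemma phi_point [Finite G] (hφ : IsAdditiveFun φ) :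
    φ (Rep.of (funRho (G ⧸ (⊤ : Subgroup G)) ρ)) = φ (Rep.of ρ) := by
  have hs : Subsingleton (G ⧸ (⊤ : Subgroup G)) := QuotientGroup.subsingleton_quotient_top
  let x0 : G ⧸ (⊤ : Subgroup G) := ((1 : G) : G ⧸ (⊤ : Subgroup G))
  let e : ((G ⧸ (⊤ : Subgroup G)) → N) ≃ₗ[k] N :=
    { toFun := fun f => f x0
      map_add' := fun _ _ => rfl
      map_smul' := fun _ _ => rfl
      invFun := fun n _ => n
      left_inv := fun f => by
        funext x
        rw [Subsingleton.elim x x0]
      right_inv := fun n => rfl }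
  refine hφ.congr e ?_
  intro g f
  show ρ g (f (g⁻¹ • x0)) = ρ g (f x0)
  rw [Subsingleton.elim (g⁻¹ • x0) x0]

end Point

/-- **Glue**: `BNStatement → AVLStatement`. -/
theorem avl_of_bn (hBN : BNStatement) : AVLStatement := by
  intro p _ k _ _ G _ _ φ hφ hind N hN
  classical
  obtain ⟨I, J, instI, instJ, c, d, hc, hd, hmarks⟩ := artinSets G
  letI : Fintype G := Fintype.ofFinite G
  -- the two `G`-sets
  let d' : Fin (Nat.card G) ⊕ J → Subgroup G := Sum.elim (fun _ => ⊤) d
  have hXY : ∀ g : G, marks (Σ i, G ⧸ c i) g = marks (Σ j, G ⧸ d' j) g := by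
    intro g
    rw [marks_sigma, marks_sigma, hmarks g, Fintype.sum_sum_type]
    have hl : ∑ a : Fin (Nat.card G), marks (G ⧸ d' (Sum.inl a)) g = Nat.card G := by
      have h1 : ∀ a : Fin (Nat.card G), marks (G ⧸ d' (Sum.inl a)) g = 1 := fun a => marks_top g
      rw [Finset.sum_congr rfl (fun a _ => h1 a)]
      simp
    rw [hl]
    rfl
  have hbn := hBN p k G φ hφ (Σ i, G ⧸ c i) (Σ j, G ⧸ d' j) hXY N.V N.ρ
  rw [sumStatement k G φ hφ I (fun i => G ⧸ c i) N.V N.ρ,
    sumStatement k G φ hφ (Fin (Nat.card G) ⊕ J) (fun j => G ⧸ d' j) N.V N.ρ,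
    Fintype.sum_sum_type] at hbn
  have h1 : ∀ i, φ (Rep.of (funRho (G ⧸ c i) N.ρ)) = 0 := fun i =>
    phi_cyclic_eq_zero p hφ hind (c i) (hc i) N.ρ
  have h2 : ∀ j, φ (Rep.of (funRho (G ⧸ d' (Sum.inr j)) N.ρ)) = 0 := fun j =>
    phi_cyclic_eq_zero p hφ hind (d j) (hd j) N.ρ
  have h3 : ∀ j : Fin (Nat.card G), φ (Rep.of (funRho (G ⧸ d' (Sum.inl j)) N.ρ)) = φ N :=
    fun j => phi_point N.ρ hφ
  simp only [h1, h2, h3, Finset.sum_const_zero, add_zero, Finset.sum_const, Finset.card_univ,
    Fintype.card_fin, nsmul_eq_mul] at hbn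
  have hG : (Nat.card G : ℤ) ≠ 0 := by exact_mod_cast Nat.card_pos.ne'
  rcases mul_eq_zero.1 hbn.symm with h | h
  · exact absurd h hG
  · exact h

end AvlGlue

end Fermat.Agent.S56.H314

end
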